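/-
S52 (the 3–5 switch), node [RAM-LOC] (helper7): VOCABULARY of the local ramification statements.

`K₀ ⊆ Ω` fields, `E : y² = x³ + a x + b` over `K₀` (helper10's `s52n_short a b`), points over `Ω`.
* `s52m_J Ω a b = 4 a³ / (4 a³ + 27 b²) = j(E) / 1728`, as an element of `Ω`;
* `s52m_FixesX a b τ`: the automorphism `τ` of `Ω / K₀` fixes the `x`-coordinate of every point
  of `E(Ω)` killed by `5`.
The theorems (in `S52/RAM/Main.lean`): for `σ` in the inertia group of a valuation subring `A` of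
`Ω` (residue characteristic prime to `30`):
`v(J) = 1 ∧ v(1 - J) = 1 ⟹ FixesX σ`; `v(J) < 1 ⟹ FixesX (σ ^ 3)`;
`v(1 - J) < 1 ⟹ FixesX (σ ^ 2)`; `1 < v(J) ⟹ FixesX (σ ^ 4) ∨ FixesX (σ ^ 5)`.
Prefix `s52m_`.
-/
import Mathlib
import Fermat.Agent.S52.NOS.Short

set_option autoImplicit false

namespace Fermat.Agent.S52

open WeierstrassCurve WeierstrassCurve.Affine

/-- `J = j / 1728 = 4 a³ / (4 a³ + 27 b²)`, in `Ω`. -/
noncomputable def s52m_J {K₀ : Type*} (Ω : Type*) [Field K₀] [Field Ω] [Algebra K₀ Ω]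
    (a b : K₀) : Ω :=
  algebraMap K₀ Ω (4 * a ^ 3 / (4 * a ^ 3 + 27 * b ^ 2))

/-- `τ` fixes the `x`-coordinate of every point of `y² = x³ + a x + b` over `Ω` killed by `5`. -/
def s52m_FixesX {K₀ Ω : Type*} [Field K₀] [Field Ω] [DecidableEq Ω] [Algebra K₀ Ω] (a b : K₀)
    (τ : Ω ≃ₐ[K₀] Ω) : Prop :=
  ∀ (x y : Ω) (h : ((s52n_short a b : Affine K₀)⁄Ω).Nonsingular x y),
    5 • (Point.some x y h : ((s52n_short a b : Affine K₀)⁄Ω).Point) = 0 → τ x = x

end Fermat.Agent.S52
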