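/-
S52 (the 3–5 switch), node [RAM] (helper7), file 1: TWISTED EQUIVARIANCE OF THE REDUCTION MAP.

`K₀ ⊆ Ω` fields, `A` a valuation subring of `Ω`, `E : y² = x³ + a x + b` over `K₀`, `u ∈ Ωˣ` a
scaling with `a' = a / u⁴`, `b' = b / u⁶ ∈ A`, `E_u : y² = x³ + a' x + b'` the scaled curve,
`ψ : E(Ω) → E_u(Ω)`, `(x, y) ↦ (x / u², y / u³)`.  For `τ` in the inertia group of `A` over `K₀`
put `ζ := τ u / u`.  If `ζ ≡ 1` (resp. `ζ ≡ -1`) modulo the maximal ideal, then `ψ (τ P)`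
(resp. `-ψ (τ P)`) has the same reduction as `ψ P` (`s52m_redTo_twist_pos`, `s52m_redTo_twist_neg`).
Consequently (`s52m_twist`): if `ζ² ≡ 1`, every `n`-torsion point `P` (`n` a unit of `A`) with
`ψ P` in `E_u⁰` satisfies `τ P = P` or `τ P = -P`; in particular `τ` fixes `x(P)`.
Prefix `s52m_`.
-/
import Mathlib
import Fermat.Agent.S52.NOS.Main
import Fermat.Agent.S58.Mult.Inertia

set_option autoImplicit false

namespace Fermat.Agent.S52

open WeierstrassCurve WeierstrassCurve.Affine IsLocalRing Fermat.Agent.S58 Fermat.Agent.LR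
  Fermat.Agent.S05

section Congr

variable {F : Type*} [Field F] [DecidableEq F] {A : ValuationSubring F}
  [DecidableEq (ResidueField A)] {W : Affine F} {Wk : Affine (ResidueField A)}

omit [DecidableEq F] [DecidableEq (ResidueField A)] in
/-- a point whose coordinates are congruent to those of `P` has the same reduction as `P`. -/
theorem s52m_redTo_congr {x y x' y' : F} {h : W.Nonsingular x y} (h' : W.Nonsingular x' y')
    {R : Wk.Point} (hR : s58r_RedTo A (Point.some x y h) R)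
    (hmem : x' ∈ A → x ∈ A)
    (hx : x ∈ A → A.valuation (x' - x) < 1)
    (hy : x ∈ A → y ∈ A → A.valuation (y' - y) < 1) :
    s58r_RedTo A (Point.some x' y' h') R := by
  generalize hP : Point.some x y h = P at hR
  cases hR with
  | zero => exact absurd hP (Point.some_ne_zero h)
  | inf h₁ hx₁ =>
    obtain ⟨hxe, -⟩ := Point.some.inj hP
    exact s58r_RedTo.inf h' (fun hm => hx₁ (hxe ▸ hmem hm))
  | aff a b h₁ h₁' =>
    obtain ⟨hxe, hye⟩ := Point.some.inj hP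
    subst hxe hye
    have hx1 := hx a.2
    have hy1 := hy a.2 b.2
    have hx'A : x' ∈ A := by
      have : x' = (x' - (a : F)) + a := by ring
      rw [this]
      exact A.add_mem _ _ ((A.valuation_le_one_iff _).mp hx1.le) a.2
    have hy'A : y' ∈ A := by
      have : y' = (y' - (b : F)) + b := by ring
      rw [this]
      exact A.add_mem _ _ ((A.valuation_le_one_iff _).mp hy1.le) b.2
    have hra : residue A ⟨x', hx'A⟩ = residue A a := by
      rw [← sub_eq_zero, ← map_sub, residue_eq_zero_iff]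
      exact (A.valuation_lt_one_iff _).mpr hx1
    have hrb : residue A ⟨y', hy'A⟩ = residue A b := by
      rw [← sub_eq_zero, ← map_sub, residue_eq_zero_iff]
      exact (A.valuation_lt_one_iff _).mpr hy1
    have h'' : Wk.Nonsingular (residue A ⟨x', hx'A⟩) (residue A ⟨y', hy'A⟩) := by
      rw [hra, hrb]; exact h₁'
    rw [← s58r_some_congr hra hrb h'' h₁']
    exact s58r_RedTo.aff ⟨x', hx'A⟩ ⟨y', hy'A⟩ h' h''

end Congr

section Val

variable {K₀ Ω : Type*} [Field K₀] [Field Ω] [Algebra K₀ Ω] {A : ValuationSubring Ω}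

/-- `c ≡ 1` and `z ∈ A` ⟹ `c · τ z ≡ z`, for `τ` in the inertia group. -/
theorem s52m_val_twist {τ : Ω ≃ₐ[K₀] Ω} (hτ : τ ∈ A.inertiaSubgroupIn K₀) {c z : Ω}
    (hc : A.valuation (c - 1) < 1) (hz : z ∈ A) : A.valuation (c * τ z - z) < 1 := by
  have h1 : c * τ z - z = (c - 1) * τ z + (τ z - z) := by ring
  rw [h1]
  refine lt_of_le_of_lt (A.valuation.map_add _ _) (max_lt ?_ (inertia_sub_lt_one A hτ hz))
  rw [map_mul]
  have h2 : A.valuation (τ z) ≤ 1 := (A.valuation_le_one_iff _).mpr (inertia_apply_mem A hτ hz)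
  calc A.valuation (c - 1) * A.valuation (τ z) ≤ A.valuation (c - 1) * 1 :=
        mul_le_mul' le_rfl h2
    _ < 1 := by rwa [mul_one]

/-- `c ≡ 1` ⟹ `c` is a unit. -/
theorem s52m_val_eq_one_of_sub {c : Ω} (hc : A.valuation (c - 1) < 1) : A.valuation c = 1 := by
  have h1 : c = (c - 1) + 1 := by ring
  rw [h1]
  have := A.valuation.map_add_eq_of_lt_right (x := c - 1) (y := 1) (by rwa [map_one])
  rw [this, map_one]

/-- `c` a unit ⟹ (`c · τ z ∈ A` ⟹ `z ∈ A`). -/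
theorem s52m_mem_of_twist_mem {τ : Ω ≃ₐ[K₀] Ω} (hτ : τ ∈ A.inertiaSubgroupIn K₀) {c z : Ω}
    (hc : A.valuation c = 1) (h : c * τ z ∈ A) : z ∈ A := by
  rw [← A.valuation_le_one_iff, map_mul, hc, one_mul, A.valuation_le_one_iff] at h
  exact (inertia_apply_mem_iff A hτ z).mp h

end Val

section Twist

variable {K₀ Ω : Type*} [Field K₀] [Field Ω] [DecidableEq Ω] [Algebra K₀ Ω]
  {A : ValuationSubring Ω} (a b : K₀) (u : Ωˣ) (a' b' : A)

omit [DecidableEq Ω] in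
/-- `x(ψ(τP)) = ζ² τ(x(ψP))`. -/
theorem s52m_X_twist (τ : Ω ≃ₐ[K₀] Ω) (x : Ω) :
    lrvc_X (s52n_C u) (τ x) = (τ u / u) ^ 2 * τ (lrvc_X (s52n_C u) x) := by
  have hu : (u : Ω) ≠ 0 := u.ne_zero
  have hτu : τ (u : Ω) ≠ 0 := by simp
  simp only [lrvc_X, s52n_C, map_mul, map_pow, map_inv₀,
    Units.val_inv_eq_inv_val, sub_zero]
  field_simp

omit [DecidableEq Ω] in
/-- `y(ψ(τP)) = ζ³ τ(y(ψP))`. -/
theorem s52m_Y_twist (τ : Ω ≃ₐ[K₀] Ω) (x y : Ω) :
    lrvc_Y (s52n_C u) (τ x) (τ y) = (τ u / u) ^ 3 * τ (lrvc_Y (s52n_C u) x y) := by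
  have hu : (u : Ω) ≠ 0 := u.ne_zero
  have hτu : τ (u : Ω) ≠ 0 := by simp
  simp only [lrvc_Y, s52n_C, map_mul, map_pow, map_inv₀,
    Units.val_inv_eq_inv_val, sub_zero, zero_mul]
  field_simp

variable [DecidableEq (ResidueField A)]

local notation "WΩ" => ((s52n_short a b : Affine K₀)⁄Ω)

omit [DecidableEq (ResidueField A)] in
/-- **twisted equivariance, `ζ ≡ 1`**: `ψ (τ P)` has the same reduction as `ψ P`. -/
theorem s52m_redTo_twist_pos (hC : s52n_C u • WΩ = s52n_short (a' : Ω) (b' : Ω))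
    (hΔ : (WΩ).Δ ≠ 0) {Wk : Affine (ResidueField A)}
    {τ : Ω ≃ₐ[K₀] Ω} (hτ : τ ∈ A.inertiaSubgroupIn K₀)
    (hζ : A.valuation (τ (u : Ω) / u - 1) < 1) {P : (WΩ).Point} {R : Wk.Point}
    (hR : s58r_RedTo A (lrvc_map (s52n_C u) WΩ hC hΔ P) R) :
    s58r_RedTo A (lrvc_map (s52n_C u) WΩ hC hΔ (τ • P)) R := by
  have hζA : τ (u : Ω) / u ∈ A :=
    (A.valuation_le_one_iff _).mp (s52m_val_eq_one_of_sub hζ).le
  have hζ2 : A.valuation ((τ (u : Ω) / u) ^ 2 - 1) < 1 := by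
    have : (τ (u : Ω) / u) ^ 2 - 1 = (τ (u : Ω) / u - 1) * (τ (u : Ω) / u + 1) := by ring
    rw [this, map_mul]
    calc _ ≤ A.valuation (τ (u : Ω) / u - 1) * 1 :=
          mul_le_mul' le_rfl ((A.valuation_le_one_iff _).mpr (A.add_mem _ _ hζA A.one_mem))
      _ < 1 := by rwa [mul_one]
  have hζ3 : A.valuation ((τ (u : Ω) / u) ^ 3 - 1) < 1 := by
    have : (τ (u : Ω) / u) ^ 3 - 1 =
        (τ (u : Ω) / u - 1) * ((τ (u : Ω) / u) ^ 2 + τ (u : Ω) / u + 1) := by ring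
    rw [this, map_mul]
    calc _ ≤ A.valuation (τ (u : Ω) / u - 1) * 1 :=
          mul_le_mul' le_rfl ((A.valuation_le_one_iff _).mpr
            (A.add_mem _ _ (A.add_mem _ _ (pow_mem hζA 2) hζA) A.one_mem))
      _ < 1 := by rwa [mul_one]
  rcases P with _ | ⟨x, y, h⟩
  · change s58r_RedTo A (lrvc_map (s52n_C u) WΩ hC hΔ (τ • (0 : (WΩ).Point))) R
    rw [ga_smul_zero]
    exact hR
  · rw [S05.smul_some τ h, lrvc_map_some]
    rw [lrvc_map_some] at hR
    refine s52m_redTo_congr _ hR ?_ ?_ ?_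
    · intro hm
      rw [s52m_X_twist] at hm
      exact s52m_mem_of_twist_mem hτ (s52m_val_eq_one_of_sub hζ2) hm
    · intro hx
      rw [s52m_X_twist]
      exact s52m_val_twist hτ hζ2 hx
    · intro _ hy
      rw [s52m_Y_twist]
      exact s52m_val_twist hτ hζ3 hy

omit [DecidableEq (ResidueField A)] in
/-- **twisted equivariance, `ζ ≡ -1`**: `-ψ (τ P)` has the same reduction as `ψ P`. -/
theorem s52m_redTo_twist_neg (hC : s52n_C u • WΩ = s52n_short (a' : Ω) (b' : Ω))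
    (hΔ : (WΩ).Δ ≠ 0) {Wk : Affine (ResidueField A)}
    {τ : Ω ≃ₐ[K₀] Ω} (hτ : τ ∈ A.inertiaSubgroupIn K₀)
    (hζ : A.valuation (τ (u : Ω) / u + 1) < 1) {P : (WΩ).Point} {R : Wk.Point}
    (hR : s58r_RedTo A (lrvc_map (s52n_C u) WΩ hC hΔ P) R) :
    s58r_RedTo A (-(lrvc_map (s52n_C u) WΩ hC hΔ (τ • P))) R := by
  have hζ' : A.valuation (-(τ (u : Ω) / u) - 1) < 1 := by
    have : -(τ (u : Ω) / u) - 1 = -(τ (u : Ω) / u + 1) := by ring
    rw [this, Valuation.map_neg]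
    exact hζ
  have hζA : τ (u : Ω) / u ∈ A := by
    have := (A.valuation_le_one_iff _).mp (s52m_val_eq_one_of_sub hζ').le
    simpa using A.neg_mem _ this
  have hζ2 : A.valuation ((τ (u : Ω) / u) ^ 2 - 1) < 1 := by
    have : (τ (u : Ω) / u) ^ 2 - 1 = (τ (u : Ω) / u + 1) * (τ (u : Ω) / u - 1) := by ring
    rw [this, map_mul]
    calc _ ≤ A.valuation (τ (u : Ω) / u + 1) * 1 :=
          mul_le_mul' le_rfl ((A.valuation_le_one_iff _).mpr (sub_mem hζA A.one_mem))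
      _ < 1 := by rwa [mul_one]
  have hζ3 : A.valuation (-(τ (u : Ω) / u) ^ 3 - 1) < 1 := by
    have : -(τ (u : Ω) / u) ^ 3 - 1 =
        (τ (u : Ω) / u + 1) * (-((τ (u : Ω) / u) ^ 2 - τ (u : Ω) / u + 1)) := by ring
    rw [this, map_mul]
    calc _ ≤ A.valuation (τ (u : Ω) / u + 1) * 1 :=
          mul_le_mul' le_rfl ((A.valuation_le_one_iff _).mpr
            (A.neg_mem _ (A.add_mem _ _ (sub_mem (pow_mem hζA 2) hζA) A.one_mem)))
      _ < 1 := by rwa [mul_one]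
  rcases P with _ | ⟨x, y, h⟩
  · change s58r_RedTo A (-(lrvc_map (s52n_C u) WΩ hC hΔ (τ • (0 : (WΩ).Point)))) R
    rw [ga_smul_zero, lrvc_map_zero, neg_zero]
    exact hR
  · rw [S05.smul_some τ h, lrvc_map_some, Point.neg_some]
    rw [lrvc_map_some] at hR
    refine s52m_redTo_congr _ hR ?_ ?_ ?_
    · intro hm
      rw [s52m_X_twist] at hm
      exact s52m_mem_of_twist_mem hτ (s52m_val_eq_one_of_sub hζ2) hm
    · intro hx
      rw [s52m_X_twist]
      exact s52m_val_twist hτ hζ2 hx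
    · intro _ hy
      rw [s52n_short_negY, s52m_Y_twist, ← neg_mul]
      exact s52m_val_twist hτ hζ3 hy

/-- the scaling map commutes with negation -/
theorem s52m_map_neg {W W' : Affine Ω} (C : VariableChange Ω) (hC : C • W = W') (hΔ : W.Δ ≠ 0)
    (P : W.Point) : lrvc_map C W hC hΔ (-P) = -lrvc_map C W hC hΔ P := by
  apply eq_neg_of_add_eq_zero_left
  rw [← lrvc_map_add, neg_add_cancel, lrvc_map_zero]

omit [DecidableEq Ω] [DecidableEq (ResidueField A)] in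
/-- `ζ² ≡ 1` ⟹ `ζ ≡ 1` or `ζ ≡ -1`. -/
theorem s52m_sq_cases {z : Ω} (hz : A.valuation (z ^ 2 - 1) < 1) :
    A.valuation (z - 1) < 1 ∨ A.valuation (z + 1) < 1 := by
  have hz2 : A.valuation (z ^ 2) = 1 := s52m_val_eq_one_of_sub hz
  have hz1 : A.valuation z = 1 := by
    rw [map_pow] at hz2
    exact (pow_eq_one_iff_of_nonneg zero_le two_ne_zero).mp hz2
  have hzA : z ∈ A := (A.valuation_le_one_iff _).mp hz1.le
  by_contra hcon
  push Not at hcon
  obtain ⟨h1, h2⟩ := hcon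
  have h1' : A.valuation (z - 1) = 1 :=
    le_antisymm ((A.valuation_le_one_iff _).mpr (sub_mem hzA A.one_mem)) h1
  have h2' : A.valuation (z + 1) = 1 :=
    le_antisymm ((A.valuation_le_one_iff _).mpr (A.add_mem _ _ hzA A.one_mem)) h2
  have : z ^ 2 - 1 = (z - 1) * (z + 1) := by ring
  rw [this, map_mul, h1', h2', one_mul] at hz
  exact lt_irrefl _ hz

/-- **Lemma A (twisted equivariance).**  If `ζ = τ u / u` satisfies `ζ² ≡ 1`, then `τ` acts as
`±1` on every `n`-torsion point `P` (`n` a unit of `A`) whose image on the scaled curve has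
nonsingular reduction. -/
theorem s52m_twist (hC : s52n_C u • WΩ = s52n_short (a' : Ω) (b' : Ω))
    (hΔ : (WΩ).Δ ≠ 0) {Wk : Affine (ResidueField A)}
    (hM : s58r_Model A (s52n_short (a' : Ω) (b' : Ω)).toAffine Wk)
    {τ : Ω ≃ₐ[K₀] Ω} (hτ : τ ∈ A.inertiaSubgroupIn K₀)
    (hζ : A.valuation ((τ (u : Ω) / u) ^ 2 - 1) < 1) {n : ℕ} (hn : A.valuation (n : Ω) = 1)
    {P : (WΩ).Point} (hnP : n • P = 0)
    (hP0 : lrvc_map (s52n_C u) WΩ hC hΔ P ∈ s58r_E0 hM) :
    τ • P = P ∨ τ • P = -P := by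
  obtain ⟨R, hR⟩ := hP0
  have hnτ : n • lrvc_map (s52n_C u) WΩ hC hΔ (τ • P) = 0 := by
    rw [← s52n_map_nsmul, ← ga_smul_nsmul, hnP, ga_smul_zero, lrvc_map_zero]
  have hnψ : n • lrvc_map (s52n_C u) WΩ hC hΔ P = 0 := by
    rw [← s52n_map_nsmul, hnP, lrvc_map_zero]
  rcases s52m_sq_cases hζ with hpos | hneg
  · left
    have h1 := s52m_redTo_twist_pos a b u a' b' hC hΔ hτ hpos hR
    set D : s58r_E0 hM := (⟨_, ⟨R, h1⟩⟩ : s58r_E0 hM) - ⟨_, ⟨R, hR⟩⟩ with hD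
    have hD0 : s58r_red hM D = 0 := by
      rw [hD, map_sub, s58r_red_eq hM _ h1, s58r_red_eq hM _ hR, sub_self]
    have hnD : n • (D : (s52n_short (a' : Ω) (b' : Ω)).toAffine.Point) = 0 := by
      rw [hD, AddSubgroup.coe_sub]
      show n • (lrvc_map (s52n_C u) WΩ hC hΔ (τ • P) - lrvc_map (s52n_C u) WΩ hC hΔ P) = 0
      rw [nsmul_sub, hnτ, hnψ, sub_zero]
    have h0 := s58r_red_injective_on_torsion hM hn hnD hD0
    have h2 : (D : (s52n_short (a' : Ω) (b' : Ω)).toAffine.Point) = 0 := by rw [h0]; rfl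
    rw [hD, AddSubgroup.coe_sub] at h2
    exact lrvc_map_injective _ _ hC hΔ (sub_eq_zero.mp h2)
  · right
    have h1 := s52m_redTo_twist_neg a b u a' b' hC hΔ hτ hneg hR
    set D : s58r_E0 hM := (⟨_, ⟨R, h1⟩⟩ : s58r_E0 hM) - ⟨_, ⟨R, hR⟩⟩ with hD
    have hD0 : s58r_red hM D = 0 := by
      rw [hD, map_sub, s58r_red_eq hM _ h1, s58r_red_eq hM _ hR, sub_self]
    have hnD : n • (D : (s52n_short (a' : Ω) (b' : Ω)).toAffine.Point) = 0 := by
      rw [hD, AddSubgroup.coe_sub]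
      show n • (-lrvc_map (s52n_C u) WΩ hC hΔ (τ • P) - lrvc_map (s52n_C u) WΩ hC hΔ P) = 0
      rw [nsmul_sub, smul_neg, hnτ, hnψ, neg_zero, sub_zero]
    have h0 := s58r_red_injective_on_torsion hM hn hnD hD0
    have h2 : (D : (s52n_short (a' : Ω) (b' : Ω)).toAffine.Point) = 0 := by rw [h0]; rfl
    rw [hD, AddSubgroup.coe_sub] at h2
    have h3 : lrvc_map (s52n_C u) WΩ hC hΔ (τ • P) = lrvc_map (s52n_C u) WΩ hC hΔ (-P) := by
      rw [s52m_map_neg]
      have h4 : -lrvc_map (s52n_C u) WΩ hC hΔ (τ • P) = lrvc_map (s52n_C u) WΩ hC hΔ P :=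
        sub_eq_zero.mp h2
      rw [← h4, neg_neg]
    exact lrvc_map_injective _ _ hC hΔ h3

omit [DecidableEq (ResidueField A)] in
/-- `τ P = ±P` ⟹ `τ` fixes `x(P)`. -/
theorem s52m_x_fixed_of_pm {τ : Ω ≃ₐ[K₀] Ω} {x y : Ω} {h : (WΩ).Nonsingular x y}
    (hP : τ • (Point.some x y h : (WΩ).Point) = Point.some x y h ∨
      τ • (Point.some x y h : (WΩ).Point) = -Point.some x y h) : τ x = x := by
  rw [S05.smul_some τ h] at hP
  rcases hP with hP | hP
  · exact (Point.some.inj hP).1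
  · rw [Point.neg_some] at hP
    exact (Point.some.inj hP).1

end Twist

end Fermat.Agent.S52
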