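/-
S52 (the 3–5 switch), node [RAM-LOC] (helper7), file 2: THE MINIMAL SCALING AND THE TAME CHARACTER.

`K₀ ⊆ Ω`, `A` a valuation subring of `Ω`, `σ` in the inertia group of `A` over `K₀`, `u ∈ Ωˣ`,
`ζ := σ u / u`.
* `s52m_zeta_rel` (Lemma R): `c ∈ K₀`, `c / u^k ∈ A` ⟹ `(c / u^k) (ζ^k - 1) ∈ 𝔪`;
* `s52m_zeta_pow`: `σ^m u / u ≡ ζ^m` modulo `𝔪`;
* `s52m_J_*`: the valuations of `J = 4 a'³ / (4 a'³ + 27 b'²)` and `1 - J` read off the reduction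
  type of the minimal model `(a', b')`;
* `s52m_exists_model`: the minimal scaling as a package.
Prefix `s52m_`.
-/
import Mathlib
import Fermat.Agent.S52.RAM.Twist
import Fermat.Agent.S52.RAM.Defs

set_option autoImplicit false

namespace Fermat.Agent.S52

open WeierstrassCurve WeierstrassCurve.Affine IsLocalRing Fermat.Agent.S58 Fermat.Agent.LR
  Fermat.Agent.S05

section Zeta

variable {K₀ Ω : Type*} [Field K₀] [Field Ω] [Algebra K₀ Ω] [Algebra.IsAlgebraic K₀ Ω]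
  {A : ValuationSubring Ω}

/-- `ζ = σ u / u` is a unit of `A`. -/
theorem s52m_zeta_val {σ : Ω ≃ₐ[K₀] Ω} (hσ : σ ∈ A.inertiaSubgroupIn K₀) (u : Ωˣ) :
    A.valuation (σ (u : Ω) / u) = 1 := by
  rw [map_div₀, inertia_valuation_apply A hσ]
  exact div_self ((Valuation.ne_zero_iff _).mpr u.ne_zero)

theorem s52m_zeta_mem {σ : Ω ≃ₐ[K₀] Ω} (hσ : σ ∈ A.inertiaSubgroupIn K₀) (u : Ωˣ) :
    σ (u : Ω) / u ∈ A :=
  (A.valuation_le_one_iff _).mp (s52m_zeta_val hσ u).le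

/-- **Lemma R.**  `c ∈ K₀` with `c / u^k ∈ A` ⟹ `(c / u^k) (ζ^k - 1) ∈ 𝔪`. -/
theorem s52m_zeta_rel {σ : Ω ≃ₐ[K₀] Ω} (hσ : σ ∈ A.inertiaSubgroupIn K₀) (c : K₀) (u : Ωˣ)
    (k : ℕ) (hc : algebraMap K₀ Ω c / (u : Ω) ^ k ∈ A) :
    A.valuation (algebraMap K₀ Ω c / (u : Ω) ^ k * ((σ (u : Ω) / u) ^ k - 1)) < 1 := by
  have hu : (u : Ω) ≠ 0 := u.ne_zero
  have hσu : σ (u : Ω) ≠ 0 := by simp
  have h1 := inertia_sub_lt_one A hσ hc
  have h2 : algebraMap K₀ Ω c / (u : Ω) ^ k * ((σ (u : Ω) / u) ^ k - 1) =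
      -((σ (u : Ω) / u) ^ k) *
        (σ (algebraMap K₀ Ω c / (u : Ω) ^ k) - algebraMap K₀ Ω c / (u : Ω) ^ k) := by
    have hU : (u : Ω) ^ k ≠ 0 := pow_ne_zero _ hu
    have hW : (σ (u : Ω)) ^ k ≠ 0 := pow_ne_zero _ hσu
    rw [map_div₀, map_pow, σ.commutes, div_pow]
    generalize (u : Ω) ^ k = U at hU ⊢
    generalize (σ (u : Ω)) ^ k = W at hW ⊢
    field_simp
    ring
  rw [h2, map_mul, Valuation.map_neg, map_pow, s52m_zeta_val hσ u, one_pow, one_mul]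
  exact h1

/-- `σ^m u / u ≡ ζ^m` modulo the maximal ideal. -/
theorem s52m_zeta_pow {σ : Ω ≃ₐ[K₀] Ω} (hσ : σ ∈ A.inertiaSubgroupIn K₀) (u : Ωˣ) (m : ℕ) :
    A.valuation ((σ ^ m) (u : Ω) / u - (σ (u : Ω) / u) ^ m) < 1 := by
  have hu : (u : Ω) ≠ 0 := u.ne_zero
  induction m with
  | zero =>
    have : ((σ ^ 0) (u : Ω) / u - (σ (u : Ω) / u) ^ 0) = 0 := by
      rw [pow_zero, pow_zero, AlgEquiv.one_apply, div_self hu, sub_self]
    rw [this, map_zero]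
    exact zero_lt_one
  | succ m ih =>
    have hm : σ ^ m ∈ A.inertiaSubgroupIn K₀ := Subgroup.pow_mem _ hσ m
    have hζm : (σ ^ m) (u : Ω) / u ∈ A := s52m_zeta_mem hm u
    have hζ : σ (u : Ω) / u ∈ A := s52m_zeta_mem hσ u
    have h1 : (σ ^ (m + 1)) (u : Ω) / u - (σ (u : Ω) / u) ^ (m + 1) =
        (σ ((σ ^ m) (u : Ω) / u) - (σ ^ m) (u : Ω) / u) * (σ (u : Ω) / u) +
          ((σ ^ m) (u : Ω) / u - (σ (u : Ω) / u) ^ m) * (σ (u : Ω) / u) := by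
      rw [pow_succ' σ m, AlgEquiv.mul_apply, map_div₀, pow_succ]
      have hσu : σ (u : Ω) ≠ 0 := by simp
      generalize (σ (u : Ω) / u) ^ m = Z
      generalize (σ ^ m) (u : Ω) = p
      field_simp
      ring
    rw [h1]
    refine lt_of_le_of_lt (A.valuation.map_add _ _) (max_lt ?_ ?_)
    · rw [map_mul, s52m_zeta_val hσ u, mul_one]
      exact inertia_sub_lt_one A hσ hζm
    · rw [map_mul, s52m_zeta_val hσ u, mul_one]
      exact ih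

/-- if `ζ^(2m) ≡ 1` then `τ := σ^m` has `(τ u / u)² ≡ 1`. -/
theorem s52m_zeta_pow_sq {σ : Ω ≃ₐ[K₀] Ω} (hσ : σ ∈ A.inertiaSubgroupIn K₀) (u : Ωˣ) (m : ℕ)
    (h : A.valuation ((σ (u : Ω) / u) ^ (2 * m) - 1) < 1) :
    A.valuation (((σ ^ m) (u : Ω) / u) ^ 2 - 1) < 1 := by
  have hm : σ ^ m ∈ A.inertiaSubgroupIn K₀ := Subgroup.pow_mem _ hσ m
  have hζm : (σ ^ m) (u : Ω) / u ∈ A := s52m_zeta_mem hm u
  have hζ : σ (u : Ω) / u ∈ A := s52m_zeta_mem hσ u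
  have h1 : ((σ ^ m) (u : Ω) / u) ^ 2 - 1 =
      ((σ ^ m) (u : Ω) / u - (σ (u : Ω) / u) ^ m) * ((σ ^ m) (u : Ω) / u + (σ (u : Ω) / u) ^ m) +
        ((σ (u : Ω) / u) ^ (2 * m) - 1) := by
    rw [pow_mul']
    ring
  rw [h1]
  refine lt_of_le_of_lt (A.valuation.map_add _ _) (max_lt ?_ h)
  rw [map_mul]
  calc _ ≤ A.valuation ((σ ^ m) (u : Ω) / u - (σ (u : Ω) / u) ^ m) * 1 :=
        mul_le_mul' le_rfl ((A.valuation_le_one_iff _).mpr
          (A.add_mem _ _ hζm (pow_mem hζ m)))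
    _ < 1 := by rw [mul_one]; exact s52m_zeta_pow hσ u m

end Zeta

section JCases

variable {Ω : Type*} [Field Ω] {A : ValuationSubring Ω}

/-- `2` and `3` are units ⟹ `4` and `27` are. -/
theorem s52m_val_4_27 (h2 : A.valuation (2 : Ω) = 1) (h3 : A.valuation (3 : Ω) = 1) :
    A.valuation (4 : Ω) = 1 ∧ A.valuation (27 : Ω) = 1 := by
  constructor
  · have : (4 : Ω) = 2 ^ 2 := by norm_num
    rw [this, map_pow, h2, one_pow]
  · have : (27 : Ω) = 3 ^ 3 := by norm_num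
    rw [this, map_pow, h3, one_pow]

variable (h2 : A.valuation (2 : Ω) = 1) (h3 : A.valuation (3 : Ω) = 1) {α β : Ω}
  (hα : A.valuation α ≤ 1) (hβ : A.valuation β ≤ 1)
  (hunit : A.valuation α = 1 ∨ A.valuation β = 1)

include h2 h3 hα hβ in
theorem s52m_D_le : A.valuation (4 * α ^ 3 + 27 * β ^ 2) ≤ 1 := by
  obtain ⟨h4, h27⟩ := s52m_val_4_27 h2 h3
  refine le_trans (A.valuation.map_add _ _) (max_le ?_ ?_)
  · rw [map_mul, h4, one_mul, map_pow]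
    exact pow_le_one' hα 3
  · rw [map_mul, h27, one_mul, map_pow]
    exact pow_le_one' hβ 2

include h2 h3 hα hβ hunit in
/-- `J ∈ A` ⟹ the minimal model has good reduction. -/
theorem s52m_D_unit_of_J_le (hJ : A.valuation (4 * α ^ 3 / (4 * α ^ 3 + 27 * β ^ 2)) ≤ 1)
    (hD : 4 * α ^ 3 + 27 * β ^ 2 ≠ 0) : A.valuation (4 * α ^ 3 + 27 * β ^ 2) = 1 := by
  obtain ⟨h4, h27⟩ := s52m_val_4_27 h2 h3
  by_contra hcon
  have hDlt : A.valuation (4 * α ^ 3 + 27 * β ^ 2) < 1 :=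
    lt_of_le_of_ne (s52m_D_le h2 h3 hα hβ) hcon
  have h4α : A.valuation (4 * α ^ 3) < 1 := by
    have : 4 * α ^ 3 = 4 * α ^ 3 / (4 * α ^ 3 + 27 * β ^ 2) * (4 * α ^ 3 + 27 * β ^ 2) := by
      field_simp
    rw [this, map_mul]
    calc _ ≤ 1 * A.valuation (4 * α ^ 3 + 27 * β ^ 2) := mul_le_mul' hJ le_rfl
      _ < 1 := by rwa [one_mul]
  have hαlt : A.valuation α < 1 := by
    rw [map_mul, h4, one_mul, map_pow] at h4α
    exact (pow_lt_one_iff three_ne_zero).mp h4α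
  have h27β : A.valuation (27 * β ^ 2) < 1 := by
    have : 27 * β ^ 2 = (4 * α ^ 3 + 27 * β ^ 2) - 4 * α ^ 3 := by ring
    rw [this]
    exact lt_of_le_of_lt (A.valuation.map_sub _ _) (max_lt hDlt h4α)
  have hβlt : A.valuation β < 1 := by
    rw [map_mul, h27, one_mul, map_pow] at h27β
    exact (pow_lt_one_iff two_ne_zero).mp h27β
  rcases hunit with h | h
  · exact absurd h hαlt.ne
  · exact absurd h hβlt.ne

include h2 h3 hα hβ in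
/-- `J ∈ 𝔪` ⟹ `a' ∈ 𝔪`. -/
theorem s52m_alpha_lt_of_J_lt (hJ : A.valuation (4 * α ^ 3 / (4 * α ^ 3 + 27 * β ^ 2)) < 1)
    (hD : 4 * α ^ 3 + 27 * β ^ 2 ≠ 0) : A.valuation α < 1 := by
  obtain ⟨h4, h27⟩ := s52m_val_4_27 h2 h3
  have h4α : A.valuation (4 * α ^ 3) < 1 := by
    have : 4 * α ^ 3 = 4 * α ^ 3 / (4 * α ^ 3 + 27 * β ^ 2) * (4 * α ^ 3 + 27 * β ^ 2) := by
      field_simp
    rw [this, map_mul]
    calc _ ≤ A.valuation (4 * α ^ 3 / (4 * α ^ 3 + 27 * β ^ 2)) * 1 :=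
          mul_le_mul' le_rfl (s52m_D_le h2 h3 hα hβ)
      _ < 1 := by rwa [mul_one]
  rw [map_mul, h4, one_mul, map_pow] at h4α
  exact (pow_lt_one_iff three_ne_zero).mp h4α

include h2 h3 hα hβ in
/-- `1 - J ∈ 𝔪` ⟹ `b' ∈ 𝔪`. -/
theorem s52m_beta_lt_of_J_lt (hJ : A.valuation (1 - 4 * α ^ 3 / (4 * α ^ 3 + 27 * β ^ 2)) < 1)
    (hD : 4 * α ^ 3 + 27 * β ^ 2 ≠ 0) : A.valuation β < 1 := by
  obtain ⟨h4, h27⟩ := s52m_val_4_27 h2 h3
  have h27β : A.valuation (27 * β ^ 2) < 1 := by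
    have : 27 * β ^ 2 =
        (1 - 4 * α ^ 3 / (4 * α ^ 3 + 27 * β ^ 2)) * (4 * α ^ 3 + 27 * β ^ 2) := by
      field_simp
      ring
    rw [this, map_mul]
    calc _ ≤ A.valuation (1 - 4 * α ^ 3 / (4 * α ^ 3 + 27 * β ^ 2)) * 1 :=
          mul_le_mul' le_rfl (s52m_D_le h2 h3 hα hβ)
      _ < 1 := by rwa [mul_one]
  rw [map_mul, h27, one_mul, map_pow] at h27β
  exact (pow_lt_one_iff two_ne_zero).mp h27β

include h2 h3 in
/-- `J` a unit and `D'` a unit ⟹ `a'` a unit. -/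
theorem s52m_alpha_unit (hJ : A.valuation (4 * α ^ 3 / (4 * α ^ 3 + 27 * β ^ 2)) = 1)
    (hDu : A.valuation (4 * α ^ 3 + 27 * β ^ 2) = 1) : A.valuation α = 1 := by
  obtain ⟨h4, h27⟩ := s52m_val_4_27 h2 h3
  rw [map_div₀, hDu, div_one, map_mul, h4, one_mul, map_pow] at hJ
  exact (pow_eq_one_iff_of_nonneg zero_le three_ne_zero).mp hJ

include h2 h3 in
/-- `1 - J` a unit and `D'` a unit ⟹ `b'` a unit. -/
theorem s52m_beta_unit (hJ : A.valuation (1 - 4 * α ^ 3 / (4 * α ^ 3 + 27 * β ^ 2)) = 1)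
    (hDu : A.valuation (4 * α ^ 3 + 27 * β ^ 2) = 1) : A.valuation β = 1 := by
  obtain ⟨h4, h27⟩ := s52m_val_4_27 h2 h3
  have hD : 4 * α ^ 3 + 27 * β ^ 2 ≠ 0 := by
    intro h0
    rw [h0, map_zero] at hDu
    exact zero_ne_one hDu
  have : 1 - 4 * α ^ 3 / (4 * α ^ 3 + 27 * β ^ 2) = 27 * β ^ 2 / (4 * α ^ 3 + 27 * β ^ 2) := by
    field_simp
    ring
  rw [this, map_div₀, hDu, div_one, map_mul, h27, one_mul, map_pow] at hJ
  exact (pow_eq_one_iff_of_nonneg zero_le two_ne_zero).mp hJ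

include h2 h3 hα hβ hunit in
/-- `J ∉ A` ⟹ the minimal model is nodal: `D' ∈ 𝔪`, `a'`, `b'` units. -/
theorem s52m_node_of_J_gt (hJ : 1 < A.valuation (4 * α ^ 3 / (4 * α ^ 3 + 27 * β ^ 2))) :
    A.valuation (4 * α ^ 3 + 27 * β ^ 2) < 1 ∧ A.valuation α = 1 ∧ A.valuation β = 1 := by
  obtain ⟨h4, h27⟩ := s52m_val_4_27 h2 h3
  have h4α : A.valuation (4 * α ^ 3) ≤ 1 := by
    rw [map_mul, h4, one_mul, map_pow]
    exact pow_le_one' hα 3
  have h27β : A.valuation (27 * β ^ 2) ≤ 1 := by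
    rw [map_mul, h27, one_mul, map_pow]
    exact pow_le_one' hβ 2
  have hDlt : A.valuation (4 * α ^ 3 + 27 * β ^ 2) < 1 := by
    by_contra hcon
    have hDu : A.valuation (4 * α ^ 3 + 27 * β ^ 2) = 1 :=
      le_antisymm (s52m_D_le h2 h3 hα hβ) (not_lt.mp hcon)
    rw [map_div₀, hDu, div_one] at hJ
    exact absurd h4α (not_le.mpr hJ)
  refine ⟨hDlt, ?_, ?_⟩
  · by_contra hcon
    have hαlt : A.valuation α < 1 := lt_of_le_of_ne hα hcon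
    have hβu : A.valuation β = 1 := hunit.resolve_left hcon
    have h1 : A.valuation (4 * α ^ 3) < 1 := by
      rw [map_mul, h4, one_mul, map_pow]
      exact (pow_lt_one_iff three_ne_zero).mpr hαlt
    have h2' : A.valuation (27 * β ^ 2) < 1 := by
      have : 27 * β ^ 2 = (4 * α ^ 3 + 27 * β ^ 2) - 4 * α ^ 3 := by ring
      rw [this]
      exact lt_of_le_of_lt (A.valuation.map_sub _ _) (max_lt hDlt h1)
    rw [map_mul, h27, one_mul, map_pow, hβu, one_pow] at h2'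
    exact lt_irrefl _ h2'
  · by_contra hcon
    have hβlt : A.valuation β < 1 := lt_of_le_of_ne hβ hcon
    have hαu : A.valuation α = 1 := hunit.resolve_right hcon
    have h1 : A.valuation (27 * β ^ 2) < 1 := by
      rw [map_mul, h27, one_mul, map_pow]
      exact (pow_lt_one_iff two_ne_zero).mpr hβlt
    have h2' : A.valuation (4 * α ^ 3) < 1 := by
      have : 4 * α ^ 3 = (4 * α ^ 3 + 27 * β ^ 2) - 27 * β ^ 2 := by ring
      rw [this]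
      exact lt_of_le_of_lt (A.valuation.map_sub _ _) (max_lt hDlt h1)
    rw [map_mul, h4, one_mul, map_pow, hαu, one_pow] at h2'
    exact lt_irrefl _ h2'

end JCases

section Model

variable {K₀ Ω : Type*} [Field K₀] [Field Ω] [Algebra K₀ Ω] [IsAlgClosed Ω]

/-- **the minimal scaling as a package**: `u ∈ Ωˣ`, `a' = a / u⁴`, `b' = b / u⁶ ∈ A`, one of them a
unit, `J = 4 a'³ / (4 a'³ + 27 b'²)`, and the scaling carries `E` to `y² = x³ + a' x + b'`. -/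
theorem s52m_exists_model (a b : K₀) (hD : 4 * a ^ 3 + 27 * b ^ 2 ≠ 0) (A : ValuationSubring Ω) :
    ∃ (u : Ωˣ) (a' b' : A),
      (a' : Ω) = algebraMap K₀ Ω a / (u : Ω) ^ 4 ∧ (b' : Ω) = algebraMap K₀ Ω b / (u : Ω) ^ 6 ∧
      (A.valuation (a' : Ω) = 1 ∨ A.valuation (b' : Ω) = 1) ∧
      4 * (a' : Ω) ^ 3 + 27 * (b' : Ω) ^ 2 ≠ 0 ∧
      s52m_J Ω a b = 4 * (a' : Ω) ^ 3 / (4 * (a' : Ω) ^ 3 + 27 * (b' : Ω) ^ 2) ∧
      s52n_C u • ((s52n_short a b : Affine K₀)⁄Ω) = s52n_short (a' : Ω) (b' : Ω) := by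
  have hinj : Function.Injective (algebraMap K₀ Ω) := (algebraMap K₀ Ω).injective
  have hDΩ : 4 * (algebraMap K₀ Ω a) ^ 3 + 27 * (algebraMap K₀ Ω b) ^ 2 ≠ 0 := by
    intro h0
    apply hD
    apply hinj
    rw [map_zero, ← h0]
    simp only [map_add, map_mul, map_pow, map_ofNat]
  have hab : algebraMap K₀ Ω a ≠ 0 ∨ algebraMap K₀ Ω b ≠ 0 := by
    by_contra hcon
    push Not at hcon
    apply hDΩ
    rw [hcon.1, hcon.2]
    ring
  obtain ⟨u, hu0, ha', hb', hunit⟩ :=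
    s52n_exists_scale A (algebraMap K₀ Ω a) (algebraMap K₀ Ω b) hab
  have hu12 : u ^ 12 ≠ 0 := pow_ne_zero _ hu0
  have hD' : 4 * (algebraMap K₀ Ω a / u ^ 4) ^ 3 + 27 * (algebraMap K₀ Ω b / u ^ 6) ^ 2 =
      (4 * (algebraMap K₀ Ω a) ^ 3 + 27 * (algebraMap K₀ Ω b) ^ 2) / u ^ 12 := by
    field_simp
  refine ⟨Units.mk0 u hu0, ⟨_, (A.valuation_le_one_iff _).mp ha'⟩,
    ⟨_, (A.valuation_le_one_iff _).mp hb'⟩, rfl, rfl, hunit, ?_, ?_, ?_⟩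
  · show 4 * (algebraMap K₀ Ω a / u ^ 4) ^ 3 + 27 * (algebraMap K₀ Ω b / u ^ 6) ^ 2 ≠ 0
    rw [hD']
    exact div_ne_zero hDΩ hu12
  · show s52m_J Ω a b = 4 * (algebraMap K₀ Ω a / u ^ 4) ^ 3 /
      (4 * (algebraMap K₀ Ω a / u ^ 4) ^ 3 + 27 * (algebraMap K₀ Ω b / u ^ 6) ^ 2)
    rw [hD', s52m_J]
    simp only [map_div₀, map_add, map_mul, map_pow, map_ofNat]
    field_simp
  · show s52n_C (Units.mk0 u hu0) • ((s52n_short a b).map (algebraMap K₀ Ω)) =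
      s52n_short (algebraMap K₀ Ω a / u ^ 4) (algebraMap K₀ Ω b / u ^ 6)
    rw [s52n_short_map, s52n_C_smul]
    congr 1
    · rw [Units.val_inv_eq_inv_val, Units.val_mk0, inv_pow, div_eq_inv_mul]
    · rw [Units.val_inv_eq_inv_val, Units.val_mk0, inv_pow, div_eq_inv_mul]

end Model

end Fermat.Agent.S52
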