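/-
S52 (the 3–5 switch), node [RAM-LOC] (helper7), file 3: THE POTENTIALLY GOOD FIBRES.

`K₀ ⊆ Ω` (`Ω` algebraically closed of characteristic `0`, algebraic over `K₀`), `A` a valuation
subring of `Ω` with `30 ∈ Aˣ`, `E : y² = x³ + a x + b` over `K₀`, `J = 4a³/(4a³+27b²)`,
`σ` in the inertia group of `A` over `K₀`.
* `s52m_good`  : `v(J) = 1`, `v(1 - J) = 1` ⟹ `σ` fixes `x(P)` for all `P ∈ E[5]`;
* `s52m_j0`    : `v(J) < 1` ⟹ `σ³` fixes `x(P)` for all `P ∈ E[5]`;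
* `s52m_j1728` : `v(1 - J) < 1` ⟹ `σ²` fixes `x(P)` for all `P ∈ E[5]`.
Prefix `s52m_`.
-/
import Mathlib
import Fermat.Agent.S52.RAM.Scale

set_option autoImplicit false

namespace Fermat.Agent.S52

open WeierstrassCurve WeierstrassCurve.Affine IsLocalRing Fermat.Agent.S58 Fermat.Agent.LR
  Fermat.Agent.S05

section Pot

variable {K₀ Ω : Type*} [Field K₀] [Field Ω] [DecidableEq Ω] [Algebra K₀ Ω]

omit [DecidableEq Ω] in
/-- the discriminant of the base-changed curve -/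
theorem s52m_Δ_ne_zero (a b : K₀) (hD : 4 * a ^ 3 + 27 * b ^ 2 ≠ 0) [CharZero Ω] :
    ((s52n_short a b : Affine K₀)⁄Ω).Δ ≠ 0 := by
  show ((s52n_short a b).map (algebraMap K₀ Ω)).Δ ≠ 0
  rw [map_Δ, s52n_short_Δ]
  intro h0
  have hinj : Function.Injective (algebraMap K₀ Ω) := (algebraMap K₀ Ω).injective
  rw [map_eq_zero_iff _ hinj] at h0
  have h16 : (-16 : K₀) ≠ 0 := by
    intro h
    have h' : algebraMap K₀ Ω (-16 : K₀) = 0 := by rw [h, map_zero]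
    rw [map_neg, map_ofNat] at h'
    norm_num at h'
  rcases mul_eq_zero.mp h0 with h | h
  · exact h16 h
  · exact hD h

omit [DecidableEq Ω] in
/-- the model of the scaled curve -/
theorem s52m_model (A : ValuationSubring Ω) [DecidableEq (ResidueField A)] (a' b' : A) :
    s58r_Model A (s52n_short (a' : Ω) (b' : Ω)).toAffine
      (s52n_short (residue A a') (residue A b')).toAffine :=
  ⟨s52n_short a' b', s52n_short_map a' b' A.subtype, s52n_short_map a' b' (residue A)⟩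

omit [DecidableEq Ω] in
/-- the reduced discriminant is a unit iff `4 a'³ + 27 b'²` is -/
theorem s52m_Δk_ne_zero (A : ValuationSubring Ω) (h2 : A.valuation (2 : Ω) = 1) (a' b' : A)
    (hDu : A.valuation (4 * (a' : Ω) ^ 3 + 27 * (b' : Ω) ^ 2) = 1) :
    (s52n_short (residue A a') (residue A b')).Δ ≠ 0 := by
  rw [s52n_short_Δ]
  have h1 : -16 * (4 * residue A a' ^ 3 + 27 * residue A b' ^ 2) =
      residue A (-16 * (4 * a' ^ 3 + 27 * b' ^ 2)) := by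
    simp only [map_mul, map_add, map_pow, map_neg, map_ofNat]
  rw [h1]
  refine (s52n_residue_ne_zero_iff A _).mpr ?_
  have h16 : A.valuation (16 : Ω) = 1 := by
    have : (16 : Ω) = 2 ^ 4 := by norm_num
    rw [this, map_pow, h2, one_pow]
  show A.valuation (-16 * (4 * (a' : Ω) ^ 3 + 27 * (b' : Ω) ^ 2)) = 1
  rw [map_mul, Valuation.map_neg, h16, one_mul, hDu]

variable [CharZero Ω]

/-- **good reduction of the scaled model + `(τ u / u)² ≡ 1` ⟹ `τ` fixes the `x`-coordinates of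
the `5`-torsion.** -/
theorem s52m_fixesX_of_good (a b : K₀) (hD : 4 * a ^ 3 + 27 * b ^ 2 ≠ 0) (A : ValuationSubring Ω)
    (h30 : A.valuation (30 : Ω) = 1) (u : Ωˣ) (a' b' : A)
    (hC : s52n_C u • ((s52n_short a b : Affine K₀)⁄Ω) = s52n_short (a' : Ω) (b' : Ω))
    (hDu : A.valuation (4 * (a' : Ω) ^ 3 + 27 * (b' : Ω) ^ 2) = 1)
    {τ : Ω ≃ₐ[K₀] Ω} (hτ : τ ∈ A.inertiaSubgroupIn K₀)
    (hζ : A.valuation ((τ (u : Ω) / u) ^ 2 - 1) < 1) : s52m_FixesX a b τ := by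
  classical
  obtain ⟨hv2, hv3, hv5⟩ := s52n_val_235 A h30
  have hv5' : A.valuation (((5 : ℕ)) : Ω) = 1 := by exact_mod_cast hv5
  have hΔ := s52m_Δ_ne_zero (Ω := Ω) a b hD
  have hM := s52m_model A a' b'
  have hgood := s52m_Δk_ne_zero A hv2 a' b' hDu
  intro x y h h5
  apply s52m_x_fixed_of_pm a b (h := h)
  exact s52m_twist a b u a' b' hC hΔ hM hτ hζ hv5' h5 (s58r_mem_E0_of_good hM hgood _)

variable [IsAlgClosed Ω] [Algebra.IsAlgebraic K₀ Ω]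

omit [DecidableEq Ω] [CharZero Ω] [IsAlgClosed Ω] in
/-- Lemma R for a unit coefficient: `ζ^k ≡ 1`. -/
theorem s52m_zeta_pow_of_unit {A : ValuationSubring Ω} {σ : Ω ≃ₐ[K₀] Ω}
    (hσ : σ ∈ A.inertiaSubgroupIn K₀) (c : K₀) (u : Ωˣ) (k : ℕ)
    (hc : A.valuation (algebraMap K₀ Ω c / (u : Ω) ^ k) = 1) :
    A.valuation ((σ (u : Ω) / u) ^ k - 1) < 1 := by
  have h := s52m_zeta_rel hσ c u k ((A.valuation_le_one_iff _).mp hc.le)
  rwa [map_mul, hc, one_mul] at h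

/-- **the good fibres.** -/
theorem s52m_good (a b : K₀) (hD : 4 * a ^ 3 + 27 * b ^ 2 ≠ 0) (A : ValuationSubring Ω)
    (h30 : A.valuation (30 : Ω) = 1) {σ : Ω ≃ₐ[K₀] Ω} (hσ : σ ∈ A.inertiaSubgroupIn K₀)
    (hJ : A.valuation (s52m_J Ω a b) = 1) (hJ1 : A.valuation (1 - s52m_J Ω a b) = 1) :
    s52m_FixesX a b σ := by
  obtain ⟨hv2, hv3, hv5⟩ := s52n_val_235 A h30
  obtain ⟨u, a', b', ha', hb', hunit, hD', hJeq, hC⟩ := s52m_exists_model (Ω := Ω) a b hD A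
  have hα : A.valuation (a' : Ω) ≤ 1 := (A.valuation_le_one_iff _).mpr a'.2
  have hβ : A.valuation (b' : Ω) ≤ 1 := (A.valuation_le_one_iff _).mpr b'.2
  rw [hJeq] at hJ hJ1
  have hDu := s52m_D_unit_of_J_le hv2 hv3 hα hβ hunit hJ.le hD'
  have hαu := s52m_alpha_unit hv2 hv3 hJ hDu
  have hβu := s52m_beta_unit hv2 hv3 hJ1 hDu
  have h4 := s52m_zeta_pow_of_unit hσ a u 4 (by rw [← ha']; exact hαu)
  have h6 := s52m_zeta_pow_of_unit hσ b u 6 (by rw [← hb']; exact hβu)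
  have hζA : σ (u : Ω) / u ∈ A := s52m_zeta_mem hσ u
  have hζ : A.valuation ((σ (u : Ω) / u) ^ 2 - 1) < 1 := by
    have : (σ (u : Ω) / u) ^ 2 - 1 =
        ((σ (u : Ω) / u) ^ 6 - 1) - (σ (u : Ω) / u) ^ 2 * ((σ (u : Ω) / u) ^ 4 - 1) := by ring
    rw [this]
    refine lt_of_le_of_lt (A.valuation.map_sub _ _) (max_lt h6 ?_)
    rw [map_mul]
    calc _ ≤ 1 * A.valuation ((σ (u : Ω) / u) ^ 4 - 1) :=
          mul_le_mul' ((A.valuation_le_one_iff _).mpr (pow_mem hζA 2)) le_rfl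
      _ < 1 := by rwa [one_mul]
  exact s52m_fixesX_of_good a b hD A h30 u a' b' hC hDu hσ hζ

/-- **the fibre `j = 0`**: `σ³` fixes the `x`-coordinates. -/
theorem s52m_j0 (a b : K₀) (hD : 4 * a ^ 3 + 27 * b ^ 2 ≠ 0) (A : ValuationSubring Ω)
    (h30 : A.valuation (30 : Ω) = 1) {σ : Ω ≃ₐ[K₀] Ω} (hσ : σ ∈ A.inertiaSubgroupIn K₀)
    (hJ : A.valuation (s52m_J Ω a b) < 1) : s52m_FixesX a b (σ ^ 3) := by
  obtain ⟨hv2, hv3, hv5⟩ := s52n_val_235 A h30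
  obtain ⟨u, a', b', ha', hb', hunit, hD', hJeq, hC⟩ := s52m_exists_model (Ω := Ω) a b hD A
  have hα : A.valuation (a' : Ω) ≤ 1 := (A.valuation_le_one_iff _).mpr a'.2
  have hβ : A.valuation (b' : Ω) ≤ 1 := (A.valuation_le_one_iff _).mpr b'.2
  rw [hJeq] at hJ
  have hDu := s52m_D_unit_of_J_le hv2 hv3 hα hβ hunit hJ.le hD'
  have hαlt := s52m_alpha_lt_of_J_lt hv2 hv3 hα hβ hJ hD'
  have hβu : A.valuation (b' : Ω) = 1 := hunit.resolve_left hαlt.ne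
  have h6 := s52m_zeta_pow_of_unit hσ b u 6 (by rw [← hb']; exact hβu)
  have hζ := s52m_zeta_pow_sq hσ u 3 (by simpa using h6)
  exact s52m_fixesX_of_good a b hD A h30 u a' b' hC hDu (Subgroup.pow_mem _ hσ 3) hζ

/-- **the fibre `j = 1728`**: `σ²` fixes the `x`-coordinates. -/
theorem s52m_j1728 (a b : K₀) (hD : 4 * a ^ 3 + 27 * b ^ 2 ≠ 0) (A : ValuationSubring Ω)
    (h30 : A.valuation (30 : Ω) = 1) {σ : Ω ≃ₐ[K₀] Ω} (hσ : σ ∈ A.inertiaSubgroupIn K₀)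
    (hJ1 : A.valuation (1 - s52m_J Ω a b) < 1) : s52m_FixesX a b (σ ^ 2) := by
  obtain ⟨hv2, hv3, hv5⟩ := s52n_val_235 A h30
  obtain ⟨u, a', b', ha', hb', hunit, hD', hJeq, hC⟩ := s52m_exists_model (Ω := Ω) a b hD A
  have hα : A.valuation (a' : Ω) ≤ 1 := (A.valuation_le_one_iff _).mpr a'.2
  have hβ : A.valuation (b' : Ω) ≤ 1 := (A.valuation_le_one_iff _).mpr b'.2
  rw [hJeq] at hJ1
  have hJ : A.valuation (4 * (a' : Ω) ^ 3 / (4 * (a' : Ω) ^ 3 + 27 * (b' : Ω) ^ 2)) ≤ 1 := by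
    have : 4 * (a' : Ω) ^ 3 / (4 * (a' : Ω) ^ 3 + 27 * (b' : Ω) ^ 2) =
        1 - (1 - 4 * (a' : Ω) ^ 3 / (4 * (a' : Ω) ^ 3 + 27 * (b' : Ω) ^ 2)) := by ring
    rw [this]
    refine le_trans (A.valuation.map_sub _ _) (max_le ?_ hJ1.le)
    rw [map_one]
  have hDu := s52m_D_unit_of_J_le hv2 hv3 hα hβ hunit hJ hD'
  have hβlt := s52m_beta_lt_of_J_lt hv2 hv3 hα hβ hJ1 hD'
  have hαu : A.valuation (a' : Ω) = 1 := hunit.resolve_right hβlt.ne
  have h4 := s52m_zeta_pow_of_unit hσ a u 4 (by rw [← ha']; exact hαu)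
  have hζ := s52m_zeta_pow_sq hσ u 2 (by simpa using h4)
  exact s52m_fixesX_of_good a b hD A h30 u a' b' hC hDu (Subgroup.pow_mem _ hσ 2) hζ

end Pot

end Fermat.Agent.S52
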