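/-
S52 (the 3–5 switch), node [RAM-LOC] (helper7), file 4: A PIECE OF LINEAR ALGEBRA OVER `𝔽₅`.

`H` an abelian group of order `25` killed by `5` (inside `V`), `g` an injective endomorphism of `V`
preserving `H` and fixing a nonzero `P₀ ∈ H`.  Then `g⁴ = 1` on `H` or `g⁵ = 1` on `H`
(`s52m_unip`): in a basis `(P₀, Q)` the matrix of `g` is `[[1, α], [0, d]]`, and `d = 1` gives
`g⁵ = 1`, `d ≠ 1` gives `g⁴ = 1`.  Mathlib only.  Prefix `s52m_`.
-/
import Mathlib

set_option autoImplicit false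

namespace Fermat.Agent.S52

theorem s52m_zmod5_ne_one : ∀ e : ZMod 5, e ≠ 0 → e ≠ 1 →
    1 + e + e ^ 2 + e ^ 3 = 0 ∧ e ^ 4 = 1 := by decide

theorem s52m_zmod5_eq_one : ∀ e : ZMod 5, e = 1 →
    1 + e + e ^ 2 + e ^ 3 + e ^ 4 = 0 ∧ e ^ 5 = 1 := by decide

theorem s52m_unip {V : Type*} [AddCommGroup V] (H : AddSubgroup V) (hcard : Nat.card H = 25)
    (h5 : ∀ v ∈ H, (5 : ℕ) • v = 0) (g : AddMonoid.End V) (hg : Function.Injective g)
    (hgH : ∀ v ∈ H, g v ∈ H) {P0 : V} (hP0 : P0 ∈ H) (hne : P0 ≠ 0) (hfix : g P0 = P0) :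
    (∀ v ∈ H, (g ^ 4) v = v) ∨ (∀ v ∈ H, (g ^ 5) v = v) := by
  have : Finite H := Nat.finite_of_card_ne_zero (by rw [hcard]; norm_num)
  have h5' : ∀ v ∈ H, (5 : ℤ) • v = 0 := by
    intro v hv
    have := h5 v hv
    rwa [← natCast_zsmul] at this
  have hzero : ∀ v ∈ H, ∀ n : ℤ, (5 : ℤ) ∣ n → n • v = 0 := by
    rintro v hv n ⟨m, rfl⟩
    rw [mul_comm, mul_zsmul, h5' v hv, smul_zero]
  -- the line `L = ⟨P0⟩`
  have hLH : AddSubgroup.zmultiples P0 ≤ H := (AddSubgroup.zmultiples_le).mpr hP0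
  have hLcard : Nat.card (AddSubgroup.zmultiples P0) = 5 := by
    rw [Nat.card_zmultiples]
    have := Fact.mk Nat.prime_five
    exact addOrderOf_eq_prime (h5 P0 hP0) hne
  -- a second basis vector
  obtain ⟨Q, hQH, hQL⟩ : ∃ Q ∈ H, Q ∉ AddSubgroup.zmultiples P0 := by
    by_contra hcon
    push Not at hcon
    have hle : H ≤ AddSubgroup.zmultiples P0 := hcon
    have := AddSubgroup.card_dvd_of_le hle
    rw [hcard, hLcard] at this
    norm_num at this
  have hKH : AddSubgroup.closure {P0, Q} ≤ H := by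
    rw [AddSubgroup.closure_le]
    intro z hz
    rcases hz with rfl | rfl
    · exact hP0
    · exact hQH
  have hP0K : P0 ∈ AddSubgroup.closure {P0, Q} := AddSubgroup.subset_closure (by simp)
  have hQK : Q ∈ AddSubgroup.closure {P0, Q} := AddSubgroup.subset_closure (by simp)
  have hLK : AddSubgroup.zmultiples P0 ≤ AddSubgroup.closure {P0, Q} :=
    (AddSubgroup.zmultiples_le).mpr hP0K
  have : Finite (AddSubgroup.closure {P0, Q}) :=
    Finite.of_injective (fun x => (⟨x.1, hKH x.2⟩ : H)) (fun x y h => Subtype.ext (by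
      have := congrArg Subtype.val h
      exact this))
  have hK25 : Nat.card (AddSubgroup.closure {P0, Q}) = 25 := by
    have h1 : Nat.card (AddSubgroup.closure {P0, Q}) ∣ 25 :=
      hcard ▸ AddSubgroup.card_dvd_of_le hKH
    have h2 : 5 ∣ Nat.card (AddSubgroup.closure {P0, Q}) :=
      hLcard ▸ AddSubgroup.card_dvd_of_le hLK
    have h3 : Nat.card (AddSubgroup.closure {P0, Q}) ≠ 5 := by
      intro h
      have := AddSubgroup.eq_of_le_of_card_ge hLK (by rw [h, hLcard])
      exact hQL (this ▸ hQK)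
    have hmem : Nat.card (AddSubgroup.closure {P0, Q}) ∈ Nat.divisors 25 :=
      Nat.mem_divisors.mpr ⟨h1, by norm_num⟩
    have hdiv : Nat.divisors 25 = {1, 5, 25} := by decide
    rw [hdiv] at hmem
    simp only [Finset.mem_insert, Finset.mem_singleton] at hmem
    rcases hmem with h | h | h
    · rw [h] at h2
      norm_num at h2
    · exact absurd h h3
    · exact h
  have hKeq : AddSubgroup.closure {P0, Q} = H :=
    AddSubgroup.eq_of_le_of_card_ge hKH (by rw [hcard, hK25])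
  -- the matrix of `g`
  have hgQ : g Q ∈ AddSubgroup.closure {P0, Q} := hKeq ▸ hgH Q hQH
  obtain ⟨α, d, hαd⟩ := AddSubgroup.mem_closure_pair.mp hgQ
  have hfixk : ∀ k : ℕ, (g ^ k) P0 = P0 := by
    intro k
    induction k with
    | zero => rfl
    | succ k ih =>
      rw [pow_succ']
      show g ((g ^ k) P0) = P0
      rw [ih, hfix]
  have hiter : ∀ k : ℕ, (g ^ k) Q = (α * ∑ i ∈ Finset.range k, d ^ i) • P0 + (d ^ k) • Q := by
    intro k
    induction k with
    | zero =>
      simp only [Finset.sum_range_zero, mul_zero, zero_smul, zero_add, pow_zero, one_smul]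
      rfl
    | succ k ih =>
      rw [pow_succ']
      show g ((g ^ k) Q) = _
      rw [ih, map_add, map_zsmul, map_zsmul, hfix, ← hαd, Finset.sum_range_succ]
      module
  have hd0 : ¬ (5 : ℤ) ∣ d := by
    intro hd
    have h1 : d • Q = 0 := hzero Q hQH d hd
    rw [h1, add_zero] at hαd
    have h2 : g (α • P0) = g Q := by rw [map_zsmul, hfix, hαd]
    have h3 := hg h2
    exact hQL (AddSubgroup.mem_zmultiples_iff.mpr ⟨α, h3⟩)
  have he0 : ((d : ℤ) : ZMod 5) ≠ 0 := by
    intro h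
    apply hd0
    have := (ZMod.intCast_zmod_eq_zero_iff_dvd d 5).mp h
    exact_mod_cast this
  have hdvd : ∀ n : ℤ, ((n : ℤ) : ZMod 5) = 0 → (5 : ℤ) ∣ n := by
    intro n h
    have := (ZMod.intCast_zmod_eq_zero_iff_dvd n 5).mp h
    exact_mod_cast this
  -- the general element
  have key : ∀ k : ℕ, (5 : ℤ) ∣ ∑ i ∈ Finset.range k, d ^ i → (5 : ℤ) ∣ d ^ k - 1 →
      ∀ v ∈ H, (g ^ k) v = v := by
    intro k hs hdk v hv
    rw [← hKeq] at hv
    obtain ⟨x, y, rfl⟩ := AddSubgroup.mem_closure_pair.mp hv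
    rw [map_add, map_zsmul, map_zsmul, hfixk k, hiter k]
    have h1 : (y * α * ∑ i ∈ Finset.range k, d ^ i) • P0 = 0 :=
      hzero P0 hP0 _ (Dvd.dvd.mul_left hs _)
    have h2 : (y * (d ^ k - 1)) • Q = 0 := hzero Q hQH _ (Dvd.dvd.mul_left hdk _)
    have h3 : x • P0 + y • ((α * ∑ i ∈ Finset.range k, d ^ i) • P0 + (d ^ k) • Q) =
        x • P0 + y • Q + ((y * α * ∑ i ∈ Finset.range k, d ^ i) • P0 +
          (y * (d ^ k - 1)) • Q) := by
      module
    rw [h3, h1, h2, add_zero, add_zero]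
  by_cases he1 : ((d : ℤ) : ZMod 5) = 1
  · right
    obtain ⟨hs, hp⟩ := s52m_zmod5_eq_one _ he1
    refine key 5 (hdvd _ ?_) (hdvd _ ?_)
    · simp only [Finset.sum_range_succ, Finset.sum_range_zero, zero_add, pow_zero, pow_one]
      push_cast
      exact hs
    · push_cast
      rw [hp, sub_self]
  · left
    obtain ⟨hs, hp⟩ := s52m_zmod5_ne_one _ he0 he1
    refine key 4 (hdvd _ ?_) (hdvd _ ?_)
    · simp only [Finset.sum_range_succ, Finset.sum_range_zero, zero_add, pow_zero, pow_one]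
      push_cast
      exact hs
    · push_cast
      rw [hp, sub_self]

end Fermat.Agent.S52
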