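/-
S52 (the 3–5 switch), node [RAM-LOC] (helper7), file 5: THE MULTIPLICATIVE FIBRE (`j = ∞`).

`K₀ ⊆ Ω` (`Ω` algebraically closed of characteristic `0`, algebraic over `K₀`), `A` a valuation
subring of `Ω` with `30 ∈ Aˣ`, `E : y² = x³ + a x + b` over `K₀`, `J = 4a³/(4a³+27b²) ∉ A`,
`σ` in the inertia group of `A` over `K₀`.  Then `σ⁴` or `σ⁵` fixes `x(P)` for all `P ∈ E[5]`
(`s52m_node`).

Proof: the minimal model `(a', b')` is nodal with `a'`, `b'` units, so `ζ = σ u / u` satisfies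
`ζ⁴ ≡ ζ⁶ ≡ 1`, hence `ζ² ≡ 1`; there is a nonzero `P₀ ∈ E[5]` whose image on the minimal model lies
in `E⁰` (`s58m_exists_torsion_lift`), so `σ P₀ = ± P₀` (`s52m_twist`); `g := ± σ` fixes `P₀`, and
`s52m_unip` gives `g⁴ = 1` or `g⁵ = 1` on `E[5]` (`#E[5] = 25` by `ld_card_torsion`).
No Weil pairing, no component group, no Tate curve.  Prefix `s52m_`.
-/
import Mathlib
import Fermat.Agent.S52.RAM.Pot
import Fermat.Agent.S52.RAM.Unip
import Fermat.Agent.S13.Ladder.Vieta

set_option autoImplicit false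

namespace Fermat.Agent.S52

open WeierstrassCurve WeierstrassCurve.Affine IsLocalRing Fermat.Agent.S58 Fermat.Agent.LR
  Fermat.Agent.S05 Fermat.Agent.S13

section Node

variable {K₀ Ω : Type*} [Field K₀] [Field Ω] [DecidableEq Ω] [Algebra K₀ Ω]

/-- `τ P = ± P` for all `P ∈ E[5]` ⟹ `τ` fixes the `x`-coordinates of `E[5]`. -/
theorem s52m_fixesX_of_pm_all (a b : K₀) (τ : Ω ≃ₐ[K₀] Ω)
    (h : ∀ P : ((s52n_short a b : Affine K₀)⁄Ω).Point, 5 • P = 0 → τ • P = P ∨ τ • P = -P) :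
    s52m_FixesX a b τ :=
  fun _ _ _ h5 => s52m_x_fixed_of_pm a b (h _ h5)

omit [DecidableEq Ω] in
/-- the reduced discriminant of a nodal minimal model vanishes -/
theorem s52m_Δk_eq_zero (A : ValuationSubring Ω) (a' b' : A)
    (hDlt : A.valuation (4 * (a' : Ω) ^ 3 + 27 * (b' : Ω) ^ 2) < 1) :
    (s52n_short (residue A a') (residue A b')).Δ = 0 := by
  rw [s52n_short_Δ]
  have h1 : 4 * residue A a' ^ 3 + 27 * residue A b' ^ 2 =
      residue A (4 * a' ^ 3 + 27 * b' ^ 2) := by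
    simp only [map_mul, map_add, map_pow, map_ofNat]
  rw [h1]
  have h2 : residue A (4 * a' ^ 3 + 27 * b' ^ 2) = 0 := by
    rw [residue_eq_zero_iff]
    exact (A.valuation_lt_one_iff _).mpr hDlt
  rw [h2, mul_zero]

omit [DecidableEq Ω] in
/-- `c₄` of the reduced minimal model is a unit if `a'` is -/
theorem s52m_c4k_ne_zero (A : ValuationSubring Ω) (h2 : A.valuation (2 : Ω) = 1)
    (h3 : A.valuation (3 : Ω) = 1) (a' b' : A) (hαu : A.valuation (a' : Ω) = 1) :
    (s52n_short (residue A a') (residue A b')).c₄ ≠ 0 := by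
  rw [s52n_short_c₄]
  have h1 : -48 * residue A a' = residue A (-48 * a') := by
    simp only [map_mul, map_neg, map_ofNat]
  rw [h1]
  refine (s52n_residue_ne_zero_iff A _).mpr ?_
  have h48 : A.valuation (48 : Ω) = 1 := by
    have : (48 : Ω) = 2 ^ 4 * 3 := by norm_num
    rw [this, map_mul, map_pow, h2, h3, one_pow, one_mul]
  show A.valuation (-48 * (a' : Ω)) = 1
  rw [map_mul, Valuation.map_neg, h48, one_mul, hαu]

variable [CharZero Ω] [IsAlgClosed Ω] [Algebra.IsAlgebraic K₀ Ω]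

/-- **the multiplicative fibre**: `σ⁴` or `σ⁵` fixes the `x`-coordinates of `E[5]`. -/
theorem s52m_node (a b : K₀) (hD : 4 * a ^ 3 + 27 * b ^ 2 ≠ 0) (A : ValuationSubring Ω)
    (h30 : A.valuation (30 : Ω) = 1) {σ : Ω ≃ₐ[K₀] Ω} (hσ : σ ∈ A.inertiaSubgroupIn K₀)
    (hJ : 1 < A.valuation (s52m_J Ω a b)) :
    s52m_FixesX a b (σ ^ 4) ∨ s52m_FixesX a b (σ ^ 5) := by
  classical
  obtain ⟨hv2, hv3, hv5⟩ := s52n_val_235 A h30
  have hv5' : A.valuation (((5 : ℕ)) : Ω) = 1 := by exact_mod_cast hv5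
  obtain ⟨u, a', b', ha', hb', hunit, hD', hJeq, hC⟩ := s52m_exists_model (Ω := Ω) a b hD A
  have hα : A.valuation (a' : Ω) ≤ 1 := (A.valuation_le_one_iff _).mpr a'.2
  have hβ : A.valuation (b' : Ω) ≤ 1 := (A.valuation_le_one_iff _).mpr b'.2
  rw [hJeq] at hJ
  obtain ⟨hDlt, hαu, hβu⟩ := s52m_node_of_J_gt hv2 hv3 hα hβ hunit hJ
  -- the tame character
  have h4 := s52m_zeta_pow_of_unit hσ a u 4 (by rw [← ha']; exact hαu)
  have h6 := s52m_zeta_pow_of_unit hσ b u 6 (by rw [← hb']; exact hβu)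
  have hζA : σ (u : Ω) / u ∈ A := s52m_zeta_mem hσ u
  have hζ : A.valuation ((σ (u : Ω) / u) ^ 2 - 1) < 1 := by
    have : (σ (u : Ω) / u) ^ 2 - 1 =
        ((σ (u : Ω) / u) ^ 6 - 1) - (σ (u : Ω) / u) ^ 2 * ((σ (u : Ω) / u) ^ 4 - 1) := by ring
    rw [this]
    refine lt_of_le_of_lt (A.valuation.map_sub _ _) (max_lt h6 ?_)
    rw [map_mul]
    calc _ ≤ 1 * A.valuation ((σ (u : Ω) / u) ^ 4 - 1) :=
          mul_le_mul' ((A.valuation_le_one_iff _).mpr (pow_mem hζA 2)) le_rfl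
      _ < 1 := by rwa [one_mul]
  -- the models
  have hΔ := s52m_Δ_ne_zero (Ω := Ω) a b hD
  have hM := s52m_model A a' b'
  have hΔW' : (s52n_short (a' : Ω) (b' : Ω)).Δ ≠ 0 := by
    rw [s52n_short_Δ]
    exact mul_ne_zero (by norm_num) hD'
  have hΔk := s52m_Δk_eq_zero A a' b' hDlt
  have hc4k := s52m_c4k_ne_zero A hv2 hv3 a' b' hαu
  have hclosed : IsAlgClosed (ResidueField A) := s58m_residue_isAlgClosed A
  have h5k : ((5 : ℕ) : ResidueField A) ≠ 0 := s52n_natCast_residue_ne_zero A 5 hv5'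
  -- a nonzero point of `E[5]` with image in `E⁰`
  obtain ⟨Q, hQ1, hQ2⟩ := s58m_exists_prime_pow_order
    (s52n_short (residue A a') (residue A b')).toAffine hΔk hc4k 5 Nat.prime_five h5k 0
  have hQ1' : 5 • Q = 0 := by simpa using hQ1
  have hQ2' : Q ≠ 0 := by simpa using hQ2
  obtain ⟨P', hP'1, hP'2⟩ := s58m_exists_torsion_lift hM hΔW' hv5' hQ1'
  have hP'0 : (P' : (s52n_short (a' : Ω) (b' : Ω)).toAffine.Point) ≠ 0 := by
    intro h0
    apply hQ2'
    have : P' = 0 := Subtype.ext h0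
    rw [← hP'2, this, map_zero]
  obtain ⟨P0, hP0⟩ := lrvc_map_surjective (s52n_C u) ((s52n_short a b : Affine K₀)⁄Ω) hC hΔ
    (P' : (s52n_short (a' : Ω) (b' : Ω)).toAffine.Point)
  have h5P0 : 5 • P0 = 0 := by
    apply lrvc_map_injective (s52n_C u) ((s52n_short a b : Affine K₀)⁄Ω) hC hΔ
    rw [s52n_map_nsmul, hP0, hP'1, lrvc_map_zero]
  have hP0ne : P0 ≠ 0 := by
    intro h0
    apply hP'0
    rw [← hP0, h0, lrvc_map_zero]
  have hE0 : lrvc_map (s52n_C u) ((s52n_short a b : Affine K₀)⁄Ω) hC hΔ P0 ∈ s58r_E0 hM := by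
    rw [hP0]
    exact P'.2
  have hpm := s52m_twist a b u a' b' hC hΔ hM hσ hζ hv5' h5P0 hE0
  -- the `5`-torsion subgroup
  set H : AddSubgroup ((s52n_short a b : Affine K₀)⁄Ω).Point :=
    (nsmulAddMonoidHom 5 : ((s52n_short a b : Affine K₀)⁄Ω).Point →+
      ((s52n_short a b : Affine K₀)⁄Ω).Point).ker with hH
  have hmemH : ∀ P : ((s52n_short a b : Affine K₀)⁄Ω).Point, P ∈ H ↔ 5 • P = 0 := by
    intro P
    rw [hH, AddMonoidHom.mem_ker, nsmulAddMonoidHom_apply]
  have hcard : Nat.card H = 25 := by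
    have h1 := ld_card_torsion ((s52n_short a b : Affine K₀)⁄Ω) hΔ (n := 5) (by decide)
    have h2 : Nat.card H =
        Nat.card {T : ((s52n_short a b : Affine K₀)⁄Ω).Point // 5 • T = 0} :=
      Nat.card_congr (Equiv.subtypeEquivRight hmemH)
    rw [h2, h1]
    norm_num
  have h5H : ∀ v ∈ H, (5 : ℕ) • v = 0 := fun v hv => (hmemH v).mp hv
  set s : AddMonoid.End ((s52n_short a b : Affine K₀)⁄Ω).Point :=
    DistribMulAction.toAddMonoidEnd (Ω ≃ₐ[K₀] Ω) ((s52n_short a b : Affine K₀)⁄Ω).Point σ with hs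
  have hs_apply : ∀ (k : ℕ) (P : ((s52n_short a b : Affine K₀)⁄Ω).Point),
      (s ^ k) P = (σ ^ k) • P := by
    intro k P
    rw [hs, ← map_pow]
    rfl
  have hs1 : ∀ P : ((s52n_short a b : Affine K₀)⁄Ω).Point, s P = σ • P := fun P => rfl
  have hsinj : Function.Injective s := by
    intro P Q h
    rw [hs1, hs1] at h
    exact MulAction.injective σ h
  have hsH : ∀ v ∈ H, s v ∈ H := by
    intro v hv
    rw [hmemH] at hv ⊢
    rw [hs1, ← ga_smul_nsmul, hv, ga_smul_zero]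
  have hP0H : P0 ∈ H := (hmemH P0).mpr h5P0
  rcases hpm with hpos | hneg
  · -- `g = s`
    have hfix : s P0 = P0 := hpos
    rcases s52m_unip H hcard h5H s hsinj hsH hP0H hP0ne hfix with h | h
    · left
      apply s52m_fixesX_of_pm_all
      intro P hP
      left
      rw [← hs_apply]
      exact h P ((hmemH P).mpr hP)
    · right
      apply s52m_fixesX_of_pm_all
      intro P hP
      left
      rw [← hs_apply]
      exact h P ((hmemH P).mpr hP)
  · -- `g = -s`
    have hfix : (-s) P0 = P0 := by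
      show -(s P0) = P0
      rw [hs1, hneg, neg_neg]
    have hginj : Function.Injective (-s) := by
      intro P Q h
      have h' : -(s P) = -(s Q) := h
      exact hsinj (neg_injective h')
    have hgH : ∀ v ∈ H, (-s) v ∈ H := by
      intro v hv
      show -(s v) ∈ H
      exact H.neg_mem (hsH v hv)
    rcases s52m_unip H hcard h5H (-s) hginj hgH hP0H hP0ne hfix with h | h
    · left
      apply s52m_fixesX_of_pm_all
      intro P hP
      left
      rw [← hs_apply]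
      have := h P ((hmemH P).mpr hP)
      rwa [Even.neg_pow (by decide)] at this
    · right
      apply s52m_fixesX_of_pm_all
      intro P hP
      right
      rw [← hs_apply]
      have := h P ((hmemH P).mpr hP)
      rw [Odd.neg_pow (by decide)] at this
      have h' : -((s ^ 5) P) = P := this
      exact neg_eq_iff_eq_neg.mp h'

end Node

end Fermat.Agent.S52
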