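/-
S52 (the 3–5 switch), node [RAM-LOC] (helper7): SUMMARY FILE.  Import this.

`K₀ ⊆ Ω` fields (`Ω` algebraically closed of characteristic `0`, algebraic over `K₀`),
`E : y² = x³ + a x + b` over `K₀`, `J = 4a³/(4a³+27b²) = j(E)/1728` (`s52m_J Ω a b`),
`A` a valuation subring of `Ω` with `30 ∈ Aˣ`, `σ` in the inertia group of `A` over `K₀`
(`A.inertiaSubgroupIn K₀`, Prelude), `s52m_FixesX a b τ` := `τ` fixes `x(P)` for all `P ∈ E(Ω)[5]`.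

* `s52m_good`  (`RAM/Pot.lean`)  : `v(J) = 1`, `v(1 - J) = 1` ⟹ `FixesX σ`;
* `s52m_j0`    (`RAM/Pot.lean`)  : `v(J) < 1` ⟹ `FixesX (σ ^ 3)`;
* `s52m_j1728` (`RAM/Pot.lean`)  : `v(1 - J) < 1` ⟹ `FixesX (σ ^ 2)`;
* `s52m_node`  (`RAM/Node.lean`) : `1 < v(J)` ⟹ `FixesX (σ ^ 4) ∨ FixesX (σ ^ 5)`;
* `s52m_main` : the four together; `s52m_node_exists` : `∃ e, 1 ≤ e ∧ e ≤ 5 ∧ FixesX (σ ^ e)`.
Prefix `s52m_`.
-/
import Mathlib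
import Fermat.Agent.S52.RAM.Pot
import Fermat.Agent.S52.RAM.Node

set_option autoImplicit false

namespace Fermat.Agent.S52

variable {K₀ Ω : Type*} [Field K₀] [Field Ω] [DecidableEq Ω] [Algebra K₀ Ω] [CharZero Ω]
  [IsAlgClosed Ω] [Algebra.IsAlgebraic K₀ Ω]

/-- **[RAM-LOC]**: the four local ramification statements. -/
theorem s52m_main (a b : K₀) (hD : 4 * a ^ 3 + 27 * b ^ 2 ≠ 0) (A : ValuationSubring Ω)
    (h30 : A.valuation (30 : Ω) = 1) {σ : Ω ≃ₐ[K₀] Ω} (hσ : σ ∈ A.inertiaSubgroupIn K₀) :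
    (A.valuation (s52m_J Ω a b) = 1 → A.valuation (1 - s52m_J Ω a b) = 1 → s52m_FixesX a b σ) ∧
    (A.valuation (s52m_J Ω a b) < 1 → s52m_FixesX a b (σ ^ 3)) ∧
    (A.valuation (1 - s52m_J Ω a b) < 1 → s52m_FixesX a b (σ ^ 2)) ∧
    (1 < A.valuation (s52m_J Ω a b) → s52m_FixesX a b (σ ^ 4) ∨ s52m_FixesX a b (σ ^ 5)) :=
  ⟨s52m_good a b hD A h30 hσ, s52m_j0 a b hD A h30 hσ, s52m_j1728 a b hD A h30 hσ,
    s52m_node a b hD A h30 hσ⟩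

/-- at the multiplicative fibre some power `σ ^ e`, `1 ≤ e ≤ 5`, fixes `x(E[5])`. -/
theorem s52m_node_exists (a b : K₀) (hD : 4 * a ^ 3 + 27 * b ^ 2 ≠ 0) (A : ValuationSubring Ω)
    (h30 : A.valuation (30 : Ω) = 1) {σ : Ω ≃ₐ[K₀] Ω} (hσ : σ ∈ A.inertiaSubgroupIn K₀)
    (hJ : 1 < A.valuation (s52m_J Ω a b)) :
    ∃ e : ℕ, 1 ≤ e ∧ e ≤ 5 ∧ s52m_FixesX a b (σ ^ e) := by
  rcases s52m_node a b hD A h30 hσ hJ with h | h
  · exact ⟨4, by norm_num, by norm_num, h⟩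
  · exact ⟨5, by norm_num, by norm_num, h⟩

end Fermat.Agent.S52
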