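/-
S52 (the 3–5 switch), node [RAM-LOC] (helper7): THE LOCAL ANALYSIS IN helper2's [F-ASM] VOCABULARY.

`s52m_ramLoc : s52fa_RamLoc t a b` — the hypothesis `hL` of `s52fa_genus_zero`, `s52fa_field`,
`s52fa_h45`, `s52fa_FAsm_of`, closed by the four theorems of `RAM/Main.lean` through helper2's
adapter `s52fa_ramLoc_of` (`FASM/Loc.lean`).  Prefix `s52m_`.
-/
import Mathlib
import Fermat.Agent.S52.FASM.Loc
import Fermat.Agent.S52.RAM.Main

set_option autoImplicit false

namespace Fermat.Agent.S52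

open IntermediateField

universe u v
variable {K : Type u} {F : Type v} [Field K] [Field F] [Algebra K F] [CharZero K]

/-- **[RAM-LOC] in the [F-ASM] vocabulary.** -/
theorem s52m_ramLoc (t : F) (ht : Transcendental K t) [FiniteDimensional K⟮t⟯ F] (a b : K)
    (ha : a ≠ 0) : s52fa_RamLoc (K := K) t a b := by
  have : CharZero F := charZero_of_injective_algebraMap (algebraMap K F).injective
  have : CharZero (s52fa_Om F) :=
    charZero_of_injective_algebraMap (algebraMap F (s52fa_Om F)).injective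
  have : Algebra.IsAlgebraic ↥K⟮t⟯ F := Algebra.IsAlgebraic.of_finite _ _
  have : Algebra.IsAlgebraic ↥K⟮t⟯ (s52fa_Om F) := Algebra.IsAlgebraic.trans ↥K⟮t⟯ F (s52fa_Om F)
  have hD := s52fa_disc_ne_zero t ht a b ha
  exact s52fa_ramLoc_of t a b
    (fun A h30 σ hσ hJ hJ1 => s52m_good _ _ hD A h30 hσ hJ hJ1)
    (fun A h30 σ hσ hJ => s52m_j0 _ _ hD A h30 hσ hJ)
    (fun A h30 σ hσ hJ1 => s52m_j1728 _ _ hD A h30 hσ hJ1)
    (fun A h30 σ hσ hJ => s52m_node _ _ hD A h30 hσ hJ)

end Fermat.Agent.S52
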